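import Fermat.Agent.Corollaries.Pet.Inner
import Fermat.Agent.LTF.Pet.Diag
import Fermat.Agent.X1.HeckeCoeff

/-!
# The adjoints of the Hecke and diamond operators, and the spectral theorem

Let `Γ₁(N) ≤ Γ ≤ Γ₀(N)` and `k : ℤ`. For the Petersson product on `S_k(Γ)`:

* `inn_dia`: `⟨<u> f, <u> g⟩ = ⟨f, g⟩`;
* `inn_hecke`: `⟨T_p f, <p> g⟩ = ⟨f, T_p g⟩` for `p ∤ N` (`adjoint_hecke`: `T_p^* = <p>^{-1} T_p`);
* `iSup_eigenspace_eq_top`: `S_k(Γ)` is the sum of the simultaneous eigenspaces of all `T_p`, `p ∤ N`,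
  and all `<u>` (`exists_sum_eigenforms`: every cusp form is a finite sum of eigenforms).
-/

set_option autoImplicit false

noncomputable section

open MeasureTheory UpperHalfPlane CongruenceSubgroup Matrix.SpecialLinearGroup
open scoped ENNReal MatrixGroups Modular ModularForm ComplexConjugate Pointwise

namespace Fermat.Agent.Cor.Pet

open Fermat.Agent.LTF.Pet (Mean AI RatGL mem_RatGL_of_int det_of_int mapGL_mem_RatGL
  hrep_mem_RatGL det_hrep_pos Diag)
open Fermat.Agent.HeckePar Fermat.Agent.Oldforms Fermat.Agent.X1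

variable {k : ℤ}

/-! ### Rational matrices -/

theorem det_mapGL_eq_one (g : SL(2, ℤ)) : (((mapGL ℝ g).det : ℝˣ) : ℝ) = 1 := by
  rw [det_of_int (val_mapGL g)]
  simp

theorem slash_scal_eq {q : ℕ} (hq : q ≠ 0) (f : ℍ → ℂ) :
    f ∣[k] scal q hq = (q : ℂ) ^ (k - 2) • f := by
  have hq' : (q : ℂ) ≠ 0 := by exact_mod_cast hq
  have hqr : (0 : ℝ) < q := by exact_mod_cast Nat.pos_of_ne_zero hq
  have hdet : ((scal q hq).det : ℝ) = (q : ℝ) * q := by
    rw [Matrix.GeneralLinearGroup.val_det_apply, scal, ModularForm.val_upperTriangularGL,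
      Matrix.det_fin_two_of]
    ring
  have hpos : 0 < ((scal q hq).det : ℝ) := by rw [hdet]; positivity
  ext τ
  have hden : UpperHalfPlane.denom (scal q hq) τ = q := by
    simp [UpperHalfPlane.denom, scal]
  have hsm : scal q hq • τ = τ := by
    apply UpperHalfPlane.ext
    rw [UpperHalfPlane.coe_smul_of_det_pos hpos, hden]
    simp [UpperHalfPlane.num, scal, hq']
  rw [ModularForm.slash_apply, hden, hsm, hdet, UpperHalfPlane.σ, if_pos hpos]
  have : |(q : ℝ) * q| = (q : ℝ) * q := abs_of_pos (by positivity)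
  rw [this]
  simp only [ContinuousAlgEquiv.refl_apply, Pi.smul_apply, smul_eq_mul]
  push_cast
  rw [mul_zpow]
  have e : (q : ℂ) ^ (k - 1) * (q : ℂ) ^ (k - 1) * (q : ℂ) ^ (-k) = (q : ℂ) ^ (k - 2) := by
    rw [← zpow_add₀ hq', ← zpow_add₀ hq']
    congr 1
    ring
  linear_combination f τ * e

theorem hrep_none_eq {p : ℕ} (hp : p ≠ 0) :
    hrep p none = scal p hp * (hrep p (some 0))⁻¹ := by
  rw [eq_mul_inv_iff_mul_eq]
  apply Units.ext
  rw [Units.val_mul, val_hrep hp, val_hrep hp, val_scal, ← map_intCast_mul]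
  congr 1
  ext i j
  fin_cases i <;> fin_cases j <;> simp [Matrix.mul_apply, Fin.sum_univ_two]

theorem det_hrep {p : ℕ} (hp : p ≠ 0) (x : Option (ZMod p)) :
    (((hrep p x).det : ℝˣ) : ℝ) = p := by
  rw [det_of_int (val_hrep hp x), det_intRep]
  exact_mod_cast rfl

/-- the adjoint of `diag(1, p)` is `diag(p, 1)` -/
theorem inn_hrep_some {f g : ℍ → ℂ} (hf : IsCF k f) (hg : IsCF k g) {p : ℕ} (hp : p ≠ 0) :
    inn k (f ∣[k] hrep p (some 0)) g = inn k f (g ∣[k] hrep p none) := by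
  have hα := hrep_mem_RatGL hp (some 0)
  have hg' : IsCF k (g ∣[k] (hrep p (some 0))⁻¹) := hg.slash (inv_mem hα)
  have h1 := inn_slash hf hg' hα (det_hrep_pos hp _)
  rw [← SlashAction.slash_mul, inv_mul_cancel, SlashAction.slash_one, det_hrep hp] at h1
  have h2 : g ∣[k] hrep p none = (p : ℂ) ^ (k - 2) • (g ∣[k] (hrep p (some 0))⁻¹) := by
    rw [hrep_none_eq hp, SlashAction.slash_mul, slash_scal_eq, ModularForm.smul_slash]
    have h3 : σ (hrep p (some 0))⁻¹ = ContinuousAlgEquiv.refl ℝ ℂ := by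
      unfold σ
      rw [if_pos]
      rw [map_inv, Units.val_inv_eq_inv_val]
      exact inv_pos.mpr (det_hrep_pos hp _)
    rw [h3, ContinuousAlgEquiv.refl_apply]
  rw [h1, h2, inn_smul_right hf hg', Complex.ofReal_natCast]

variable {N : ℕ}

/-- moving elements of `Γ₁(N)` through the product -/
theorem inn_slash_gamma {f g : ℍ → ℂ} (hf : IsCF k f) (hg : IsCF k g)
    (hfi : ∀ γ ∈ Gamma1 N, f ∣[k] (mapGL ℝ γ) = f) (hgi : ∀ γ ∈ Gamma1 N, g ∣[k] (mapGL ℝ γ) = g)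
    {A B : GL (Fin 2) ℝ} (hB : B ∈ RatGL) {γ γ' : SL(2, ℤ)} (hγ : γ ∈ Gamma1 N)
    (hγ' : γ' ∈ Gamma1 N) (h : A = mapGL ℝ γ * B * mapGL ℝ γ') :
    inn k (f ∣[k] A) g = inn k (f ∣[k] B) g := by
  rw [h, SlashAction.slash_mul, SlashAction.slash_mul, hfi γ hγ]
  conv_lhs => rw [← hgi γ' hγ']
  exact inn_slash_of_det_one (hf.slash hB) hg (mapGL_mem_RatGL _) (det_mapGL_eq_one _)

/-- the coset representatives of the Hecke operator are in one double coset of `Γ₁(N)` -/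
theorem exists_glRep_eq (N p : ℕ) [hp : Fact p.Prime] (hpN : ¬ p ∣ N) (x : HIdx N p) :
    ∃ γ ∈ Gamma1 N, ∃ γ' ∈ Gamma1 N,
      (hSys N p).glRep x = mapGL ℝ γ * hrep p (some 0) * mapGL ℝ γ' := by
  have hp0 : p ≠ 0 := hp.out.ne_zero
  obtain ⟨x, hx⟩ := x
  cases x with
  | some j =>
    refine ⟨1, one_mem _, ModularGroup.T ^ (j.val : ℤ), ?_, ?_⟩
    · rw [Gamma1_mem, ModularGroup.coe_T_zpow]
      simp
    · rw [map_one, one_mul, glRep_some p j hx]
      apply Units.ext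
      rw [Units.val_mul, val_hrep hp0, val_mapGL, ← map_intCast_mul,
        ModularForm.val_heckeMatrix hp0]
      ext i j
      fin_cases i <;> fin_cases j <;> simp [ModularGroup.coe_T_zpow]
  | none =>
    have hcop : IsCoprime (p : ℤ) (N : ℤ) :=
      Nat.isCoprime_iff_coprime.mpr ((Nat.Prime.coprime_iff_not_dvd hp.out).mpr hpN)
    obtain ⟨x, y', hxy⟩ := hcop
    set y : ℤ := -y' with hy
    have hdet : (p : ℤ) * x - N * y = 1 := by rw [hy]; linear_combination hxy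
    let γ : SL(2, ℤ) := ⟨!![(p : ℤ), -y; -(N : ℤ), x], by
      rw [Matrix.det_fin_two_of]; linear_combination hdet⟩
    let γ' : SL(2, ℤ) := ⟨!![(p : ℤ) * x, y; (N : ℤ), 1], by
      rw [Matrix.det_fin_two_of]; linear_combination hdet⟩
    have hpx : (p : ZMod N) * (x : ZMod N) = 1 := by
      have h1 := congrArg (Int.cast : ℤ → ZMod N) hdet
      push_cast at h1
      rwa [ZMod.natCast_self, zero_mul, sub_zero] at h1
    refine ⟨diaMat N (pUnit N p) * γ, ?_, γ', ?_, ?_⟩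
    · have h0 : γ ∈ Gamma0 N := by rw [Gamma0_mem]; simp [γ]
      refine mem_gamma1_of_mem_gamma0 (mul_mem (diaMat_mem _) h0) ?_
      have h1 : ((diaMat N (pUnit N p) * γ : SL(2, ℤ)) 0 0 : ℤ) =
          diaMat N (pUnit N p) 0 0 * γ 0 0 + diaMat N (pUnit N p) 0 1 * γ 1 0 := by
        rw [Matrix.SpecialLinearGroup.coe_mul, Matrix.mul_apply, Fin.sum_univ_two]
      rw [h1, Int.cast_add, Int.cast_mul, Int.cast_mul, diaMat_00]
      have h2 : ((γ 0 0 : ℤ) : ZMod N) = ((pUnit N p : (ZMod N)ˣ) : ZMod N) := by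
        rw [coe_pUnit ((Nat.Prime.coprime_iff_not_dvd hp.out).mpr hpN)]
        simp [γ]
      have h3 : ((γ 1 0 : ℤ) : ZMod N) = 0 := by simp [γ]
      rw [h2, h3, mul_zero, add_zero, Units.inv_mul]
    · rw [Gamma1_mem]
      refine ⟨?_, ?_, ?_⟩
      · simp [γ', hpx]
      · simp [γ']
      · simp [γ']
    · rw [glRep_none p hx, map_mul, mul_assoc, mul_assoc,
        show ModularForm.heckeDiagMatrix p = hrep p none from rfl]
      congr 1
      apply Units.ext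
      rw [Units.val_mul, Units.val_mul, val_hrep hp0, val_hrep hp0, val_mapGL, val_mapGL,
        ← map_intCast_mul, ← map_intCast_mul]
      congr 1
      rw [intRep_none, intRep_some]
      ext i j
      fin_cases i <;> fin_cases j <;> simp [Matrix.mul_apply, Fin.sum_univ_two, γ, γ']
      · linear_combination (-(p : ℤ)) * hdet
      · ring
      · ring
      · linear_combination (-1 : ℤ) * hdet

/-! ### The Hecke operators -/

variable (Γ : Subgroup SL(2, ℤ)) [hΓ : Between N Γ] [Γ.FiniteIndex]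

include hΓ in
omit [Γ.FiniteIndex] in
theorem slash_gamma1 (f : CuspForm Γ k) : ∀ γ ∈ Gamma1 N, (⇑f : ℍ → ℂ) ∣[k] (mapGL ℝ γ) = ⇑f :=
  fun γ hγ => inv_gamma1 Γ k f ⟨γ, hγ⟩

omit hΓ in
theorem isCF (f : CuspForm Γ k) : IsCF k (⇑f : ℍ → ℂ) :=
  IsCF.of (Γ : Subgroup (GL (Fin 2) ℝ)) f

theorem glRep_mem_RatGL (p : ℕ) [hp : Fact p.Prime] (hpN : ¬ p ∣ N) (x : HIdx N p) :
    (hSys N p).glRep x ∈ RatGL := by
  obtain ⟨γ, -, γ', -, h⟩ := exists_glRep_eq N p hpN x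
  rw [h]
  exact mul_mem (mul_mem (mapGL_mem_RatGL _) (hrep_mem_RatGL hp.out.ne_zero _))
    (mapGL_mem_RatGL _)

theorem inn_glRep (f g : CuspForm Γ k) (p : ℕ) [hp : Fact p.Prime] (hpN : ¬ p ∣ N)
    (x : HIdx N p) : inn k ((⇑f : ℍ → ℂ) ∣[k] (hSys N p).glRep x) ⇑g =
      inn k ((⇑f : ℍ → ℂ) ∣[k] hrep p (some 0)) ⇑g := by
  obtain ⟨γ, hγ, γ', hγ', h⟩ := exists_glRep_eq N p hpN x
  exact inn_slash_gamma (isCF Γ f) (isCF Γ g) (slash_gamma1 Γ f) (slash_gamma1 Γ g)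
    (hrep_mem_RatGL hp.out.ne_zero _) hγ hγ' h

theorem inn_glRep_right (f g : CuspForm Γ k) (p : ℕ) [hp : Fact p.Prime] (hpN : ¬ p ∣ N)
    (x : HIdx N p) : inn k ⇑f ((⇑g : ℍ → ℂ) ∣[k] (hSys N p).glRep x) =
      inn k ⇑f ((⇑g : ℍ → ℂ) ∣[k] hrep p (some 0)) := by
  rw [inn_symm ((isCF Γ g).slash (glRep_mem_RatGL p hpN x)) (isCF Γ f), inn_glRep Γ g f p hpN x,
    ← inn_symm ((isCF Γ g).slash (hrep_mem_RatGL hp.out.ne_zero _)) (isCF Γ f)]

/-- **The diamond operators are unitary.** -/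
theorem inn_dia (u : (ZMod N)ˣ) (f g : CuspForm Γ k) :
    inn k ⇑(dCusp N Γ k u f) ⇑(dCusp N Γ k u g) = inn k ⇑f ⇑g := by
  rw [coe_dCusp, coe_dCusp]
  exact inn_slash_of_det_one (isCF Γ f) (isCF Γ g) (mapGL_mem_RatGL _) (det_mapGL_eq_one _)

/-- **The adjoint of `T_p` is `<p>⁻¹ T_p`**, in the form `⟨T_p f, <p> g⟩ = ⟨f, T_p g⟩`. -/
theorem inn_hecke (p : ℕ) [hp : Fact p.Prime] (hpN : ¬ p ∣ N) (f g : CuspForm Γ k) :
    inn k ⇑(tCusp N Γ k p f) ⇑(dCusp N Γ k (pUnit N p) g) = inn k ⇑f ⇑(tCusp N Γ k p g) := by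
  have hp0 : p ≠ 0 := hp.out.ne_zero
  have hnone : p ∣ N → (none : Option (ZMod p)) ≠ none := fun h => absurd h hpN
  have key : inn k ((⇑f : ℍ → ℂ) ∣[k] hrep p (some 0)) ⇑(dCusp N Γ k (pUnit N p) g) =
      inn k ⇑f ((⇑g : ℍ → ℂ) ∣[k] hrep p (some 0)) := by
    rw [inn_hrep_some (isCF Γ f) (isCF Γ _) hp0, ← inn_glRep_right Γ f g p hpN ⟨none, hnone⟩,
      glRep_none p hnone, SlashAction.slash_mul, coe_dCusp]
    rfl
  rw [coe_tCusp, coe_tCusp, IntSys.slashSum_def, IntSys.slashSum_def,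
    inn_sum_left _ _ (fun x _ => (isCF Γ f).slash (glRep_mem_RatGL p hpN x)) (isCF Γ _),
    inn_sum_right _ (isCF Γ f) _ (fun x _ => (isCF Γ g).slash (glRep_mem_RatGL p hpN x))]
  refine Finset.sum_congr rfl fun x _ => ?_
  rw [inn_glRep Γ f _ p hpN x, inn_glRep_right Γ f g p hpN x, key]

theorem dCusp_inv (u : (ZMod N)ˣ) (f : CuspForm Γ k) :
    dCusp N Γ k u (dCusp N Γ k u⁻¹ f) = f := by
  rw [← dCusp_mul, mul_inv_cancel, dCusp_one]

/-- **The adjoint of `T_p` is `<p>⁻¹ T_p`**, `p ∤ N`. -/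
theorem adjoint_hecke (p : ℕ) [hp : Fact p.Prime] (hpN : ¬ p ∣ N) (f g : CuspForm Γ k) :
    inn k ⇑(tCusp N Γ k p f) ⇑g =
      inn k ⇑f ⇑(tCusp N Γ k p (dCusp N Γ k (pUnit N p)⁻¹ g)) := by
  have h := inn_hecke Γ p hpN f (dCusp N Γ k (pUnit N p)⁻¹ g)
  rwa [dCusp_inv Γ _ g] at h

/-- The adjoint of `<u>` is `<u>⁻¹`. -/
theorem adjoint_dia (u : (ZMod N)ˣ) (f g : CuspForm Γ k) :
    inn k ⇑(dCusp N Γ k u f) ⇑g = inn k ⇑f ⇑(dCusp N Γ k u⁻¹ g) := by
  have h := inn_dia Γ u f (dCusp N Γ k u⁻¹ g)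
  rwa [dCusp_inv Γ u g] at h

/-! ### Normal operators are diagonalisable -/

/-- An operator with an adjoint which commutes with it has no non-trivial generalised
eigenvectors. -/
theorem diag_of_adjoint {V : Type*} [AddCommGroup V] [Module ℂ V] (B : V → V → ℂ)
    (hadd : ∀ x y z, B (x + y) z = B x z + B y z) (hsmul : ∀ (c : ℂ) x z, B (c • x) z = conj c * B x z)
    (hsymm : ∀ x y, B y x = conj (B x y)) (hdef : ∀ x, B x x = 0 → x = 0)
    {T T' : Module.End ℂ V} (hadj : ∀ x y, B (T x) y = B x (T' y))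
    (hcomm : ∀ x, T (T' x) = T' (T x)) : Diag T := by
  have hadd' : ∀ x y z, B z (x + y) = B z x + B z y := fun x y z => by
    rw [hsymm (x + y) z, hadd, map_add, ← hsymm x z, ← hsymm y z]
  have hsmul' : ∀ (c : ℂ) x z, B z (c • x) = c * B z x := fun c x z => by
    rw [hsymm (c • x) z, hsmul, map_mul, Complex.conj_conj, ← hsymm x z]
  intro a v hv
  -- `S = T - a`, `S' = T' - conj a`
  set S : Module.End ℂ V := T - a • LinearMap.id with hS
  set S' : Module.End ℂ V := T' - (conj a) • LinearMap.id with hS'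
  have hSa : ∀ x, S x = T x - a • x := fun x => rfl
  have hSa' : ∀ x, S' x = T' x - (conj a) • x := fun x => rfl
  have hadjS : ∀ x y, B (S x) y = B x (S' y) := by
    intro x y
    have h1 : S x = T x + (-a) • x := by rw [hSa, _root_.neg_smul, sub_eq_add_neg]
    have h2 : S' y = T' y + (-(conj a)) • y := by rw [hSa', _root_.neg_smul, sub_eq_add_neg]
    rw [h1, h2, hadd, hadd', hsmul, hsmul', hadj, map_neg]
  have hadjS' : ∀ x y, B (S' x) y = B x (S y) := by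
    intro x y
    rw [hsymm y (S' x), ← hadjS, ← hsymm]
  have hcommS : ∀ x, S (S' x) = S' (S x) := by
    intro x
    rw [hSa, hSa', hSa', hSa, map_sub, map_sub, map_smul, map_smul, hcomm]
    module
  have hSS : S (S v) = 0 := by
    rw [hSa (S v), hSa v, hv, sub_self]
  have hw : S' (S v) = 0 := by
    apply hdef
    rw [hadjS', hcommS, hSS, map_zero]
    have h0 := hsmul' 0 0 (S v)
    rw [zero_smul, zero_mul] at h0
    exact h0
  have hSv : S v = 0 := by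
    apply hdef
    rw [hadjS, hw]
    have h0 := hsmul' 0 0 v
    rw [zero_smul, zero_mul] at h0
    exact h0
  rw [hSa, sub_eq_zero] at hSv
  exact hSv

theorem diag_hecke (p : ℕ) [hp : Fact p.Prime] (hpN : ¬ p ∣ N) : Diag (tCusp N Γ k p) := by
  refine diag_of_adjoint (fun f g : CuspForm Γ k => inn k ⇑f ⇑g)
    (T' := tCusp N Γ k p ∘ₗ dCusp N Γ k (pUnit N p)⁻¹)
    (fun f g h => inn_add_left (isCF Γ f) (isCF Γ g) (isCF Γ h))
    (fun c f g => inn_smul_left (isCF Γ f) (isCF Γ g) c)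
    (fun f g => inn_symm (isCF Γ f) (isCF Γ g))
    (fun f h => DFunLike.coe_injective (eq_zero_of_inn_self (isCF Γ f) h))
    (fun f g => adjoint_hecke Γ p hpN f g) (fun f => ?_)
  rw [LinearMap.comp_apply, LinearMap.comp_apply, dCusp_tCusp_comm]

theorem diag_dia (u : (ZMod N)ˣ) : Diag (dCusp N Γ k u) := by
  refine diag_of_adjoint (fun f g : CuspForm Γ k => inn k ⇑f ⇑g) (T' := dCusp N Γ k u⁻¹)
    (fun f g h => inn_add_left (isCF Γ f) (isCF Γ g) (isCF Γ h))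
    (fun c f g => inn_smul_left (isCF Γ f) (isCF Γ g) c)
    (fun f g => inn_symm (isCF Γ f) (isCF Γ g))
    (fun f h => DFunLike.coe_injective (eq_zero_of_inn_self (isCF Γ f) h))
    (fun f g => adjoint_dia Γ u f g) (fun f => ?_)
  rw [← dCusp_mul, ← dCusp_mul, mul_comm]

/-! ### The spectral theorem -/

omit hΓ in
theorem finiteDimensional (N : ℕ) (k : ℤ) [Between N Γ] : FiniteDimensional ℂ (CuspForm Γ k) := by
  obtain ⟨B, hB⟩ := exists_sturm N Γ k
  let L : CuspForm Γ k →ₗ[ℂ] (Fin (B + 1) → ℂ) := LinearMap.pi fun i => qLin N Γ k (i : ℕ)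
  refine FiniteDimensional.of_injective L ?_
  rw [injective_iff_map_eq_zero]
  intro f hf
  exact hB f fun j hj => congrFun hf ⟨j, by omega⟩

/-- the index set of the operators `T_p`, `p ∤ N`, and `<u>` -/
abbrev OpIdx (N : ℕ) : Type := {p : ℕ // p.Prime ∧ ¬ p ∣ N} ⊕ (ZMod N)ˣ

omit hΓ in
/-- the operators `T_p`, `p ∤ N`, and `<u>` -/
def opOf (N : ℕ) (k : ℤ) (Γ : Subgroup SL(2, ℤ)) [Between N Γ] [Γ.FiniteIndex] :
    OpIdx N → Module.End ℂ (CuspForm Γ k)
  | .inl p => haveI : Fact (p : ℕ).Prime := ⟨p.2.1⟩; tCusp N Γ k (p : ℕ)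
  | .inr u => dCusp N Γ k u

theorem opOf_inl (p : {p : ℕ // p.Prime ∧ ¬ p ∣ N}) (_ : Fact (p : ℕ).Prime) :
    opOf N k Γ (.inl p) = tCusp N Γ k (p : ℕ) := rfl

theorem opOf_inr (u : (ZMod N)ˣ) : opOf N k Γ (.inr u) = dCusp N Γ k u := rfl

theorem commute_opOf (i j : OpIdx N) : Commute (opOf N k Γ i) (opOf N k Γ j) := by
  rcases i with p | u <;> rcases j with q | v
  · have hp : Fact (p : ℕ).Prime := ⟨p.2.1⟩
    have hq : Fact (q : ℕ).Prime := ⟨q.2.1⟩
    exact LinearMap.ext fun g => tCusp_comm Γ k (p : ℕ) (q : ℕ) g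
  · have hp : Fact (p : ℕ).Prime := ⟨p.2.1⟩
    exact LinearMap.ext fun g => (dCusp_tCusp_comm Γ k v (p : ℕ) g).symm
  · have hq : Fact (q : ℕ).Prime := ⟨q.2.1⟩
    exact LinearMap.ext fun g => dCusp_tCusp_comm Γ k u (q : ℕ) g
  · refine LinearMap.ext fun g => ?_
    show dCusp N Γ k u (dCusp N Γ k v g) = dCusp N Γ k v (dCusp N Γ k u g)
    rw [← dCusp_mul, ← dCusp_mul, mul_comm]

theorem diag_opOf (i : OpIdx N) : Diag (opOf N k Γ i) := by
  rcases i with p | u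
  · have hp : Fact (p : ℕ).Prime := ⟨p.2.1⟩
    exact diag_hecke Γ (p : ℕ) p.2.2
  · exact diag_dia Γ u

/-- **The spectral theorem**: `S_k(Γ)` is the sum of the simultaneous eigenspaces of the Hecke
operators `T_p`, `p ∤ N`, and the diamond operators. -/
theorem iSup_eigenspace_eq_top :
    ⨆ χ : OpIdx N → ℂ, ⨅ i, (opOf N k Γ i).eigenspace (χ i) = ⊤ := by
  have := finiteDimensional Γ N k
  exact LTF.Pet.iSup_eigenspace_eq_top (commute_opOf Γ) (diag_opOf Γ)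

/-- Every cusp form is a finite sum of simultaneous eigenforms of the `T_p`, `p ∤ N`, and the
diamond operators. -/
theorem exists_sum_eigenforms (f : CuspForm Γ k) :
    ∃ (s : Finset (OpIdx N → ℂ)) (g : (OpIdx N → ℂ) → CuspForm Γ k),
      (∀ χ i, opOf N k Γ i (g χ) = χ i • g χ) ∧ f = ∑ χ ∈ s, g χ := by
  have := finiteDimensional Γ N k
  exact LTF.Pet.exists_sum_eigenvectors (commute_opOf Γ) (diag_opOf Γ) f

/-- **`a_p = ε(p) conj(a_p)`** for eigenvalues. -/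
theorem eigenvalue_eq (p : ℕ) [hp : Fact p.Prime] (hpN : ¬ p ∣ N) {f : CuspForm Γ k} (hf : f ≠ 0)
    {a e : ℂ} (ha : tCusp N Γ k p f = a • f) (he : dCusp N Γ k (pUnit N p) f = e • f) :
    a = e * conj a := by
  have h1 := inn_hecke Γ p hpN f f
  have h2 := inn_dia Γ (pUnit N p) f f
  have hne : inn k ⇑f ⇑f ≠ 0 := fun h =>
    hf (DFunLike.coe_injective (eq_zero_of_inn_self (isCF Γ f) h))
  have hsm : ∀ c : ℂ, (⇑(c • f) : ℍ → ℂ) = c • (⇑f : ℍ → ℂ) := fun c => rfl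
  rw [ha, he, hsm, hsm, inn_smul_left (isCF Γ f) ((isCF Γ f).smul e),
    inn_smul_right (isCF Γ f) (isCF Γ f), inn_smul_right (isCF Γ f) (isCF Γ f)] at h1
  have h3 : (conj a * e - a) * inn k ⇑f ⇑f = 0 := by linear_combination h1
  rcases mul_eq_zero.mp h3 with h4 | h4
  · linear_combination -h4
  · exact absurd h4 hne

end Fermat.Agent.Cor.Pet

end
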