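import Fermat.Agent.LTF.Pet.Mean
import Fermat.Agent.LTF.Pet.Hecke
import Mathlib.Analysis.InnerProductSpace.Defs

/-!
# The Petersson product in arbitrary weight

For every `k : ℤ` the mean over an arithmetic group of `conj (f z) g(z) Im(z)^k` is a positive
definite hermitian form on the space of all cusp forms of weight `k` for all arithmetic subgroups of
`GL₂(ℝ)` with determinants one (`core`: for one group), and
`⟨f | α, g | α⟩ = det(α)^(k - 2) ⟨f, g⟩` for rational `α` of positive determinant (`inn_slash`).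
The means are those of `Fermat.Agent.LTF.Pet.Mean`; the weight two case is
`Fermat.Agent.LTF.Pet.Inner`.
-/

set_option autoImplicit false

noncomputable section

open MeasureTheory UpperHalfPlane
open scoped ENNReal MatrixGroups Modular ModularForm ComplexConjugate Pointwise

namespace Fermat.Agent.Cor.Pet

open Fermat.Agent.LTF.Pet (Mean AI RatGL conj_isArithmetic Mean_add Mean_smul Mean_star Mean_zero
  Mean_nonneg eq_zero_of_Mean)

/-- restriction of a cusp form to a smaller group -/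
def restrict {k : ℤ} {Γ Γ' : Subgroup (GL (Fin 2) ℝ)} (h : Γ' ≤ Γ) (F : CuspForm Γ k) :
    CuspForm Γ' k where
  toFun := ⇑F
  slash_action_eq' γ hγ := SlashInvariantFormClass.slash_action_eq F γ (h hγ)
  holo' := CuspFormClass.holo F
  zero_at_cusps' hc := CuspFormClass.zero_at_cusps F (hc.mono h)

variable (k : ℤ)

/-- cusp forms of weight `k` for some arithmetic group -/
def IsCF (f : ℍ → ℂ) : Prop :=
  ∃ Γ : Subgroup (GL (Fin 2) ℝ), Γ.IsArithmetic ∧ Γ.HasDetOne ∧ ∃ F : CuspForm Γ k, (⇑F : ℍ → ℂ) = f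

variable {k}

theorem IsCF.of (Γ : Subgroup (GL (Fin 2) ℝ)) [Γ.IsArithmetic] [Γ.HasDetOne] (F : CuspForm Γ k) :
    IsCF k ⇑F := ⟨Γ, inferInstance, inferInstance, F, rfl⟩

theorem IsCF.exists_common {f g : ℍ → ℂ} (hf : IsCF k f) (hg : IsCF k g) :
    ∃ Γ : Subgroup (GL (Fin 2) ℝ), Γ.IsArithmetic ∧ Γ.HasDetOne ∧
      (∃ F : CuspForm Γ k, (⇑F : ℍ → ℂ) = f) ∧ ∃ G : CuspForm Γ k, (⇑G : ℍ → ℂ) = g := by
  obtain ⟨Γ, a, b, F, rfl⟩ := hf
  obtain ⟨Γ', a', b', G, rfl⟩ := hg
  exact ⟨Γ ⊓ Γ', inferInstance, inferInstance, ⟨restrict inf_le_left F, rfl⟩,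
    ⟨restrict inf_le_right G, rfl⟩⟩

theorem IsCF.add {f g : ℍ → ℂ} (hf : IsCF k f) (hg : IsCF k g) : IsCF k (f + g) := by
  obtain ⟨Γ, a, b, ⟨F, rfl⟩, ⟨G, rfl⟩⟩ := hf.exists_common hg
  exact ⟨Γ, a, b, F + G, rfl⟩

theorem IsCF.smul {f : ℍ → ℂ} (hf : IsCF k f) (c : ℂ) : IsCF k (c • f) := by
  obtain ⟨Γ, a, b, F, rfl⟩ := hf
  exact ⟨Γ, a, b, c • F, rfl⟩

theorem IsCF.zero : IsCF k (0 : ℍ → ℂ) := ⟨𝒮ℒ, inferInstance, inferInstance, 0, rfl⟩

theorem IsCF.sum {ι : Type*} (s : Finset ι) (f : ι → ℍ → ℂ) (hf : ∀ i ∈ s, IsCF k (f i)) :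
    IsCF k (∑ i ∈ s, f i) := by
  classical
  induction s using Finset.induction_on with
  | empty => rw [Finset.sum_empty]; exact IsCF.zero
  | insert a s ha ih =>
    rw [Finset.sum_insert ha]
    exact (hf a (Finset.mem_insert_self _ _)).add (ih fun i hi => hf i (Finset.mem_insert_of_mem hi))

theorem IsCF.slash {f : ℍ → ℂ} (hf : IsCF k f) {α : GL (Fin 2) ℝ} (hα : α ∈ RatGL) :
    IsCF k (f ∣[k] α) := by
  obtain ⟨Γ, a, b, F, rfl⟩ := hf
  have : (ConjAct.toConjAct α⁻¹ • Γ).IsArithmetic := conj_isArithmetic (inv_mem hα) Γ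
  exact ⟨ConjAct.toConjAct α⁻¹ • Γ, this, inferInstance, CuspForm.translate F α, rfl⟩

theorem IsCF.continuous {f : ℍ → ℂ} (hf : IsCF k f) : Continuous f := by
  obtain ⟨Γ, a, b, F, rfl⟩ := hf
  exact (CuspFormClass.holo F).continuous

theorem IsCF.ai {f g : ℍ → ℂ} (hf : IsCF k f) (hg : IsCF k g) : AI (petersson k f g) := by
  obtain ⟨Γ, a, b, ⟨F, rfl⟩, ⟨G, rfl⟩⟩ := hf.exists_common hg
  refine ⟨(petersson_continuous k hf.continuous hg.continuous).measurable,
    CuspFormClass.petersson_bounded_left k Γ F G, ⟨Γ, a, fun γ hγ z => ?_⟩⟩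
  exact SlashInvariantFormClass.petersson_smul hγ

variable (k)

/-- the Petersson product in weight `k` -/
def inn (f g : ℍ → ℂ) : ℂ := Mean (petersson k f g)

variable {k}

theorem inn_add_right {f g g' : ℍ → ℂ} (hf : IsCF k f) (hg : IsCF k g) (hg' : IsCF k g') :
    inn k f (g + g') = inn k f g + inn k f g' := by
  unfold inn
  rw [← Mean_add (hf.ai hg) (hf.ai hg')]
  congr 1
  ext z
  simp only [petersson, Pi.add_apply]
  ring

theorem inn_add_left {f f' g : ℍ → ℂ} (hf : IsCF k f) (hf' : IsCF k f') (hg : IsCF k g) :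
    inn k (f + f') g = inn k f g + inn k f' g := by
  unfold inn
  rw [← Mean_add (hf.ai hg) (hf'.ai hg)]
  congr 1
  ext z
  simp only [petersson, Pi.add_apply, map_add]
  ring

theorem inn_smul_right {f g : ℍ → ℂ} (hf : IsCF k f) (hg : IsCF k g) (c : ℂ) :
    inn k f (c • g) = c * inn k f g := by
  unfold inn
  rw [← Mean_smul (hf.ai hg)]
  congr 1
  ext z
  simp only [petersson, Pi.smul_apply, smul_eq_mul]
  ring

theorem inn_smul_left {f g : ℍ → ℂ} (hf : IsCF k f) (hg : IsCF k g) (c : ℂ) :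
    inn k (c • f) g = conj c * inn k f g := by
  unfold inn
  rw [← Mean_smul (hf.ai hg)]
  congr 1
  ext z
  simp only [petersson, Pi.smul_apply, smul_eq_mul, map_mul]
  ring

theorem inn_symm {f g : ℍ → ℂ} (hf : IsCF k f) (hg : IsCF k g) : inn k g f = conj (inn k f g) := by
  unfold inn
  rw [← Mean_star (hf.ai hg)]
  congr 1
  ext z
  exact petersson_symm k f g z

theorem inn_zero_right (f : ℍ → ℂ) : inn k f 0 = 0 := by
  unfold inn
  have : petersson k f 0 = 0 := by
    ext z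
    simp [petersson]
  rw [this, Mean_zero]

theorem inn_zero_left (g : ℍ → ℂ) : inn k 0 g = 0 := by
  unfold inn
  have : petersson k 0 g = 0 := by
    ext z
    simp [petersson]
  rw [this, Mean_zero]

theorem inn_sum_left {ι : Type*} (s : Finset ι) (f : ι → ℍ → ℂ) (hf : ∀ i ∈ s, IsCF k (f i))
    {g : ℍ → ℂ} (hg : IsCF k g) : inn k (∑ i ∈ s, f i) g = ∑ i ∈ s, inn k (f i) g := by
  classical
  induction s using Finset.induction_on with
  | empty => rw [Finset.sum_empty, Finset.sum_empty, inn_zero_left]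
  | insert a s ha ih =>
    rw [Finset.sum_insert ha, Finset.sum_insert ha,
      inn_add_left (hf a (Finset.mem_insert_self _ _))
        (IsCF.sum s f fun i hi => hf i (Finset.mem_insert_of_mem hi)) hg,
      ih fun i hi => hf i (Finset.mem_insert_of_mem hi)]

theorem inn_sum_right {ι : Type*} (s : Finset ι) {f : ℍ → ℂ} (hf : IsCF k f) (g : ι → ℍ → ℂ)
    (hg : ∀ i ∈ s, IsCF k (g i)) : inn k f (∑ i ∈ s, g i) = ∑ i ∈ s, inn k f (g i) := by
  classical
  induction s using Finset.induction_on with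
  | empty => rw [Finset.sum_empty, Finset.sum_empty, inn_zero_right]
  | insert a s ha ih =>
    rw [Finset.sum_insert ha, Finset.sum_insert ha,
      inn_add_right hf (hg a (Finset.mem_insert_self _ _))
        (IsCF.sum s g fun i hi => hg i (Finset.mem_insert_of_mem hi)),
      ih fun i hi => hg i (Finset.mem_insert_of_mem hi)]

/-- **behaviour of the Petersson product** under rational matrices of positive determinant -/
theorem inn_slash {f g : ℍ → ℂ} (hf : IsCF k f) (hg : IsCF k g) {α : GL (Fin 2) ℝ} (hα : α ∈ RatGL)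
    (hdet : 0 < (α.det : ℝ)) :
    inn k (f ∣[k] α) (g ∣[k] α) = ((α.det : ℝ) : ℂ) ^ (k - 2) * inn k f g := by
  unfold inn
  rw [← ((hf.ai hg).translate hα).2, ← Mean_smul ((hf.ai hg).translate hα).1]
  congr 1
  ext z
  rw [petersson_slash]
  have : σ α = ContinuousAlgEquiv.refl ℝ ℂ := by
    unfold σ
    rw [if_pos hdet]
  rw [this, abs_of_pos hdet]
  rfl

/-- the Petersson product is invariant under `SL₂(ℤ)` -/
theorem inn_slash_of_det_one {f g : ℍ → ℂ} (hf : IsCF k f) (hg : IsCF k g) {α : GL (Fin 2) ℝ}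
    (hα : α ∈ RatGL) (hdet : (α.det : ℝ) = 1) : inn k (f ∣[k] α) (g ∣[k] α) = inn k f g := by
  rw [inn_slash hf hg hα (by rw [hdet]; exact one_pos), hdet, Complex.ofReal_one, one_zpow, one_mul]

theorem petersson_self (f : ℍ → ℂ) (z : ℍ) :
    petersson k f f z = ((Complex.normSq (f z) * z.im ^ k : ℝ) : ℂ) := by
  simp only [petersson, Complex.ofReal_mul, Complex.ofReal_zpow, Complex.normSq_eq_conj_mul_self]

theorem petersson_self_pos (f : ℍ → ℂ) (z : ℍ) :
    0 ≤ (petersson k f f z).re ∧ (petersson k f f z).im = 0 := by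
  rw [petersson_self]
  refine ⟨?_, Complex.ofReal_im _⟩
  rw [Complex.ofReal_re]
  exact mul_nonneg (Complex.normSq_nonneg _) (zpow_nonneg z.im_pos.le _)

/-- positivity -/
theorem inn_self_re_nonneg {f : ℍ → ℂ} (hf : IsCF k f) : 0 ≤ (inn k f f).re :=
  Mean_nonneg (hf.ai hf) fun z => petersson_self_pos f z

theorem eq_zero_of_inn_self {f : ℍ → ℂ} (hf : IsCF k f) (h : inn k f f = 0) : f = 0 := by
  have h1 := eq_zero_of_Mean (petersson_continuous k hf.continuous hf.continuous) (hf.ai hf)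
    (petersson_self_pos f) h
  ext z
  have h2 : petersson k f f z = 0 := congrFun h1 z
  rw [petersson_self] at h2
  have h3 : Complex.normSq (f z) * z.im ^ k = 0 := by exact_mod_cast h2
  rcases mul_eq_zero.mp h3 with h4 | h4
  · exact Complex.normSq_eq_zero.mp h4
  · exact absurd h4 (zpow_ne_zero _ z.im_ne_zero)

/-- **The Petersson inner product** on the space of cusp forms of weight `k` for an arithmetic
group. -/
abbrev core (Γ : Subgroup (GL (Fin 2) ℝ)) [Γ.IsArithmetic] [Γ.HasDetOne] :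
    InnerProductSpace.Core ℂ (CuspForm Γ k) where
  inner f g := inn k ⇑f ⇑g
  conj_inner_symm f g := (inn_symm (IsCF.of Γ g) (IsCF.of Γ f)).symm
  re_inner_nonneg f := inn_self_re_nonneg (IsCF.of Γ f)
  add_left f g h := inn_add_left (IsCF.of Γ f) (IsCF.of Γ g) (IsCF.of Γ h)
  smul_left f g c := inn_smul_left (IsCF.of Γ f) (IsCF.of Γ g) c
  definite f h := DFunLike.coe_injective (eq_zero_of_inn_self (IsCF.of Γ f) h)

end Fermat.Agent.Cor.Pet

end
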