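import Fermat.Agent.Corollaries.Pet.Hecke

/-!
# Orthogonality of eigenforms and norms of Hecke operators

For `Γ₁(N) ≤ Γ ≤ Γ₀(N)`, `p ∤ N`, and the Petersson product on `S_k(Γ)`:

* `inn_eq_zero_of_eigen`, `inn_eq_zero_of_dia`: eigenforms with different eigenvalues of `T_p` (or of
  a diamond operator) are orthogonal;
* `inn_hecke_le`: if all eigenvalues of `T_p` have absolute value at most `c`, then
  `⟨T_p f, T_p f⟩ ≤ c² ⟨f, f⟩` for every cusp form `f`.
-/

set_option autoImplicit false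

noncomputable section

open UpperHalfPlane CongruenceSubgroup Matrix.SpecialLinearGroup
open scoped MatrixGroups ModularForm ComplexConjugate

namespace Fermat.Agent.Cor.Pet

open Fermat.Agent.X1

/-! ### Hermitian forms -/

/-- positive definite hermitian forms, conjugate linear in the first variable -/
structure Herm {V : Type*} [AddCommGroup V] [Module ℂ V] (B : V → V → ℂ) : Prop where
  add : ∀ x y z, B (x + y) z = B x z + B y z
  smul : ∀ (c : ℂ) (x z : V), B (c • x) z = conj c * B x z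
  symm : ∀ x y, B y x = conj (B x y)
  nonneg : ∀ x, 0 ≤ (B x x).re
  definite : ∀ x, B x x = 0 → x = 0

namespace Herm

variable {V : Type*} [AddCommGroup V] [Module ℂ V] {B : V → V → ℂ} (h : Herm B)

include h

theorem add_right (x y z : V) : B z (x + y) = B z x + B z y := by
  rw [h.symm (x + y) z, h.add, map_add, ← h.symm x z, ← h.symm y z]

theorem smul_right (c : ℂ) (x z : V) : B z (c • x) = c * B z x := by
  rw [h.symm (c • x) z, h.smul, map_mul, Complex.conj_conj, ← h.symm x z]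

theorem zero_left (z : V) : B 0 z = 0 := by
  have h1 := h.smul 0 0 z
  rwa [zero_smul, map_zero, zero_mul] at h1

theorem zero_right (z : V) : B z 0 = 0 := by
  have h1 := h.smul_right 0 0 z
  rwa [zero_smul, zero_mul] at h1

theorem sum_left {ι : Type*} (s : Finset ι) (f : ι → V) (z : V) :
    B (∑ i ∈ s, f i) z = ∑ i ∈ s, B (f i) z := by
  classical
  induction s using Finset.induction_on with
  | empty => rw [Finset.sum_empty, Finset.sum_empty, h.zero_left]
  | insert a s ha ih => rw [Finset.sum_insert ha, Finset.sum_insert ha, h.add, ih]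

theorem sum_right {ι : Type*} (s : Finset ι) (f : ι → V) (z : V) :
    B z (∑ i ∈ s, f i) = ∑ i ∈ s, B z (f i) := by
  classical
  induction s using Finset.induction_on with
  | empty => rw [Finset.sum_empty, Finset.sum_empty, h.zero_right]
  | insert a s ha ih => rw [Finset.sum_insert ha, Finset.sum_insert ha, h.add_right, ih]

variable {T T' : Module.End ℂ V} (hadj : ∀ x y, B (T x) y = B x (T' y))
  (hcomm : ∀ x, T (T' x) = T' (T x))

include hadj

theorem adj_symm (x y : V) : B (T' x) y = B x (T y) := by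
  rw [h.symm y (T' x), ← hadj, ← h.symm]

include hcomm

/-- eigenvectors of a normal operator are eigenvectors of its adjoint -/
theorem adjoint_eigen {a : ℂ} {x : V} (hx : T x = a • x) : T' x = conj a • x := by
  have h1 : T' x + (-(conj a)) • x = 0 := by
    apply h.definite
    have h2 : ∀ z, B (T' x + (-(conj a)) • x) z = B x (T z + (-a) • z) := by
      intro z
      rw [h.add, h.smul, h.add_right, h.smul_right, h.adj_symm hadj, map_neg, Complex.conj_conj]
    rw [h2, map_add, map_smul, hcomm, hx, map_smul]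
    have h3 : a • T' x + -(conj a) • a • x + -a • (T' x + -(conj a) • x) = 0 := by module
    rw [h3, h.zero_right]
  have h2 : T' x = (T' x + (-(conj a)) • x) + conj a • x := by module
  rw [h2, h1, zero_add]

/-- eigenvectors for different eigenvalues are orthogonal -/
theorem ortho {a b : ℂ} {x y : V} (hx : T x = a • x) (hy : T y = b • y) (hab : a ≠ b) :
    B x y = 0 := by
  have h1 := hadj x y
  rw [hx, h.smul, h.adjoint_eigen hadj hcomm hy, h.smul_right] at h1
  have h2 : (conj a - conj b) * B x y = 0 := by rw [sub_mul, h1, sub_self]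
  rcases mul_eq_zero.mp h2 with h3 | h3
  · rw [← map_sub, map_eq_zero, sub_eq_zero] at h3
    exact absurd h3 hab
  · exact h3

omit hadj hcomm

/-- the norm of a sum of orthogonal vectors -/
theorem sum_sq {ι : Type*} (s : Finset ι) (g : ι → V) (c : ι → ℂ)
    (ho : ∀ i ∈ s, ∀ j ∈ s, i ≠ j → B (g i) (g j) = 0) :
    (B (∑ i ∈ s, c i • g i) (∑ i ∈ s, c i • g i)).re = ∑ i ∈ s, ‖c i‖ ^ 2 * (B (g i) (g i)).re := by
  rw [h.sum_left, Complex.re_sum]
  refine Finset.sum_congr rfl fun i hi => ?_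
  rw [h.sum_right, Finset.sum_eq_single i]
  · rw [h.smul, h.smul_right, ← mul_assoc, ← Complex.normSq_eq_conj_mul_self,
      Complex.re_ofReal_mul, Complex.normSq_eq_norm_sq]
  · intro j hj hji
    rw [h.smul, h.smul_right, ho i hi j hj (Ne.symm hji), mul_zero, mul_zero]
  · intro hi'
    exact absurd hi hi'

end Herm

/-! ### The Petersson product -/

variable {k : ℤ} {N : ℕ} (Γ : Subgroup SL(2, ℤ)) [hΓ : Between N Γ] [Γ.FiniteIndex]

omit hΓ in
variable (k) in
theorem herm : Herm (fun f g : CuspForm Γ k => inn k ⇑f ⇑g) where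
  add f g h := inn_add_left (isCF Γ f) (isCF Γ g) (isCF Γ h)
  smul c f g := inn_smul_left (isCF Γ f) (isCF Γ g) c
  symm f g := inn_symm (isCF Γ f) (isCF Γ g)
  nonneg f := inn_self_re_nonneg (isCF Γ f)
  definite f h := DFunLike.coe_injective (eq_zero_of_inn_self (isCF Γ f) h)

/-- **Eigenforms with different eigenvalues are orthogonal.** -/
theorem inn_eq_zero_of_eigen (p : ℕ) [hp : Fact p.Prime] (hpN : ¬ p ∣ N) {f g : CuspForm Γ k}
    {a b : ℂ} (ha : tCusp N Γ k p f = a • f) (hb : tCusp N Γ k p g = b • g) (hab : a ≠ b) :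
    inn k ⇑f ⇑g = 0 :=
  (herm k Γ).ortho (T := tCusp N Γ k p) (T' := tCusp N Γ k p ∘ₗ dCusp N Γ k (pUnit N p)⁻¹)
    (fun f g => adjoint_hecke Γ p hpN f g) (fun f => by
      rw [LinearMap.comp_apply, LinearMap.comp_apply, dCusp_tCusp_comm]) ha hb hab

/-- Forms with different characters are orthogonal. -/
theorem inn_eq_zero_of_dia (u : (ZMod N)ˣ) {f g : CuspForm Γ k}
    {a b : ℂ} (ha : dCusp N Γ k u f = a • f) (hb : dCusp N Γ k u g = b • g) (hab : a ≠ b) :
    inn k ⇑f ⇑g = 0 :=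
  (herm k Γ).ortho (T := dCusp N Γ k u) (T' := dCusp N Γ k u⁻¹)
    (fun f g => adjoint_dia Γ u f g) (fun f => by
      rw [← dCusp_mul, ← dCusp_mul, mul_comm]) ha hb hab

/-- Simultaneous eigenforms with different systems of eigenvalues are orthogonal. -/
theorem inn_eq_zero_of_ne {f g : CuspForm Γ k} {χ χ' : OpIdx N → ℂ}
    (hf : ∀ i, opOf N k Γ i f = χ i • f) (hg : ∀ i, opOf N k Γ i g = χ' i • g) (hne : χ ≠ χ') :
    inn k ⇑f ⇑g = 0 := by
  obtain ⟨i, hi⟩ := Function.ne_iff.mp hne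
  rcases i with p | u
  · have hp : Fact (p : ℕ).Prime := ⟨p.2.1⟩
    exact inn_eq_zero_of_eigen Γ (p : ℕ) p.2.2 (hf (.inl p)) (hg (.inl p)) hi
  · exact inn_eq_zero_of_dia Γ u (hf (.inr u)) (hg (.inr u)) hi

/-- **The norm of `T_p`**: if all eigenvalues of `T_p` on `S_k(Γ)` have absolute value at most `c`,
then `⟨T_p f, T_p f⟩ ≤ c² ⟨f, f⟩` for every cusp form `f`. -/
theorem inn_hecke_le (p : ℕ) [hp : Fact p.Prime] (hpN : ¬ p ∣ N) {c : ℝ}
    (hc : ∀ a : ℂ, Module.End.HasEigenvalue (tCusp N Γ k p) a → ‖a‖ ≤ c) (f : CuspForm Γ k) :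
    (inn k ⇑(tCusp N Γ k p f) ⇑(tCusp N Γ k p f)).re ≤ c ^ 2 * (inn k ⇑f ⇑f).re := by
  obtain ⟨s, g, hg, hf⟩ := exists_sum_eigenforms (N := N) Γ f
  have ho : ∀ χ ∈ s, ∀ χ' ∈ s, χ ≠ χ' → inn k ⇑(g χ) ⇑(g χ') = 0 := fun χ _ χ' _ hne =>
    inn_eq_zero_of_ne Γ (hg χ) (hg χ') hne
  have h1 : f = ∑ χ ∈ s, (1 : ℂ) • g χ := by
    rw [hf]
    exact Finset.sum_congr rfl fun χ _ => (one_smul ℂ _).symm
  have h2 : tCusp N Γ k p f = ∑ χ ∈ s, χ (.inl ⟨p, hp.out, hpN⟩) • g χ := by
    rw [hf, map_sum]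
    exact Finset.sum_congr rfl fun χ _ => hg χ (.inl ⟨p, hp.out, hpN⟩)
  have h3 := (herm k Γ).sum_sq s g (fun _ => 1) ho
  have h4 := (herm k Γ).sum_sq s g (fun χ => χ (.inl ⟨p, hp.out, hpN⟩)) ho
  rw [← h1] at h3
  rw [← h2] at h4
  rw [h3, h4, Finset.mul_sum]
  refine Finset.sum_le_sum fun χ _ => ?_
  rw [norm_one, one_pow, one_mul]
  by_cases hχ : g χ = 0
  · rw [hχ, (herm k Γ).zero_left, Complex.zero_re, mul_zero, mul_zero]
  · have h5 : ‖χ (.inl ⟨p, hp.out, hpN⟩)‖ ≤ c := by
      apply hc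
      exact Module.End.hasEigenvalue_of_hasEigenvector
        (Module.End.hasEigenvector_iff.mpr
          ⟨Module.End.mem_eigenspace_iff.mpr (hg χ (.inl ⟨p, hp.out, hpN⟩)), hχ⟩)
    exact mul_le_mul_of_nonneg_right (pow_le_pow_left₀ (norm_nonneg _) h5 2)
      ((herm k Γ).nonneg _)

end Fermat.Agent.Cor.Pet

end
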